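import Fermat.Agent.EllipticSecondKind.QuasiPeriods
import Fermat.Agent.ClassNumberOne.Ode
import Fermat.Agent.Damerell.TorsionValues

/-!
# The distribution relation of a multiplier

If `β L ⊆ L` and `β` is not real, `β ² ℘ (β z) = ∑ ℘ (z + u) - S`, the sum over the `u` modulo `L`
with `β u ∈ L`.
-/

set_option autoImplicit false

noncomputable section

open Filter
open scoped Topology PeriodPair

namespace FA.CMQuasiPeriods

open FA.Chudnovsky (Frame exists_frame)
open FA.ClassNumberOne (exists_const_of_germs wp_near)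

variable {L : PeriodPair} {β : ℂ}

/-- A multiplier satisfies an integral equation. -/
theorem exists_quadratic_eq (hβ : ∀ l ∈ L.lattice, β * l ∈ L.lattice) :
    ∃ t n : ℤ, β ^ 2 - t * β + n = 0 := by
  obtain ⟨Φ, -⟩ := exists_frame L
  obtain ⟨a, b, hab⟩ := (Φ.mem _).1 (hβ _ Φ.ω_mem)
  obtain ⟨c, e, hce⟩ := (Φ.mem _).1 (hβ _ Φ.τω_mem)
  have h1 : (a : ℂ) + b * Φ.τ = β := mul_right_cancel₀ Φ.hω hab
  have h2 : (c : ℂ) + e * Φ.τ = β * Φ.τ :=
    mul_right_cancel₀ Φ.hω (hce.trans (mul_assoc β Φ.τ Φ.ω).symm)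
  refine ⟨a + e, a * e - b * c, ?_⟩
  push_cast
  linear_combination (-(β - e)) * h1 - (b : ℂ) * h2

theorem isAlgebraic_of_mul_mem (hβ : ∀ l ∈ L.lattice, β * l ∈ L.lattice) : IsAlgebraic ℚ β := by
  obtain ⟨t, n, h⟩ := exists_quadratic_eq hβ
  refine ⟨Polynomial.X ^ 2 - Polynomial.C (t : ℚ) * Polynomial.X + Polynomial.C (n : ℚ),
    fun h0 => ?_, ?_⟩
  · simpa [Polynomial.coeff_X, Polynomial.coeff_C, -map_intCast] using
      congrArg (fun P => Polynomial.coeff P 2) h0
  · simpa using h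

/-- The points killed by a multiplier are torsion. -/
theorem exists_torsion (hβ : ∀ l ∈ L.lattice, β * l ∈ L.lattice) (him : β.im ≠ 0) :
    ∃ N : ℕ, 0 < N ∧ ∀ x, β * x ∈ L.lattice → (N : ℂ) * x ∈ L.lattice := by
  obtain ⟨t, n, h⟩ := exists_quadratic_eq hβ
  have hn : n ≠ 0 := fun h0 => by
    rw [h0, Int.cast_zero, add_zero, sq, ← sub_mul] at h
    rcases mul_eq_zero.1 h with h1 | h1
    · exact him (by rw [sub_eq_zero.1 h1, Complex.intCast_im])
    · exact him (by rw [h1, Complex.zero_im])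
  refine ⟨n.natAbs, Int.natAbs_pos.2 hn, fun x hx => ?_⟩
  have h1 : (n : ℂ) * x ∈ L.lattice := by
    rw [show (n : ℂ) * x = (t : ℂ) * (β * x) - β * (β * x) by linear_combination x * h]
    exact sub_mem (by simpa [zsmul_eq_mul] using zsmul_mem hx t) (hβ _ hx)
  rcases n.natAbs_eq with e | e <;> rw [e] at h1 <;> push_cast at h1
  · simpa using h1
  · simpa using neg_mem h1

/-- Representatives of the kernel of a multiplier. -/
theorem exists_kernel (hβ : ∀ l ∈ L.lattice, β * l ∈ L.lattice) (him : β.im ≠ 0) :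
    ∃ (N : ℕ) (U : Finset ℂ), 0 < N ∧ 0 ∈ U ∧
      (∀ u ∈ U, β * u ∈ L.lattice ∧ (N : ℂ) * u ∈ L.lattice) ∧
      (∀ u ∈ U, ∀ v ∈ U, u - v ∈ L.lattice → u = v) ∧
      ∀ x, β * x ∈ L.lattice → ∃ u ∈ U, x + u ∈ L.lattice := by
  classical
  obtain ⟨Φ, -⟩ := exists_frame L
  obtain ⟨N, hN, hNx⟩ := exists_torsion hβ him
  have hNC : (N : ℂ) ≠ 0 := Nat.cast_ne_zero.2 hN.ne'
  set pt : ℕ × ℕ → ℂ := fun p => ((p.1 : ℂ) + p.2 * Φ.τ) * Φ.ω / N with hpt
  refine ⟨N, ((Finset.range N ×ˢ Finset.range N).image pt).filter fun u => β * u ∈ L.lattice,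
    hN, Finset.mem_filter.2 ⟨Finset.mem_image.2 ⟨(0, 0), by simp [hN], by simp [hpt]⟩,
      by simp⟩, fun u hu => ?_, fun u hu v hv h => ?_, fun x hx => ?_⟩
  · exact ⟨(Finset.mem_filter.1 hu).2, hNx _ (Finset.mem_filter.1 hu).2⟩
  · obtain ⟨⟨i, j⟩, hij, rfl⟩ := Finset.mem_image.1 (Finset.mem_filter.1 hu).1
    obtain ⟨⟨i', j'⟩, hij', rfl⟩ := Finset.mem_image.1 (Finset.mem_filter.1 hv).1
    simp only [Finset.mem_product, Finset.mem_range] at hij hij'
    obtain ⟨m, n, hmn⟩ := (Φ.mem _).1 h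
    have h1 : ((i : ℂ) - i' - N * m) + ((j : ℂ) - j' - N * n) * Φ.τ = 0 := by
      refine (mul_eq_zero.1 ?_).resolve_right Φ.hω
      simp only [hpt] at hmn
      field_simp at hmn
      linear_combination -hmn
    have hj : ((j : ℝ) - j' - N * n) = 0 := by
      have := congrArg Complex.im h1
      simpa [Φ.hτ.ne'] using this
    have hi : ((i : ℝ) - i' - N * m) = 0 := by
      have := congrArg Complex.re h1
      simpa [hj] using this
    have key : ∀ {p q : ℕ} {k : ℤ}, p < N → q < N → ((p : ℝ) - q - N * k) = 0 → p = q := by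
      intro p q k hp hq hk
      have hk' : (p : ℤ) - q = N * k := by
        have : (((p : ℤ) - q : ℤ) : ℝ) = ((N * k : ℤ) : ℝ) := by push_cast; linarith
        exact_mod_cast this
      have := Int.eq_zero_of_abs_lt_dvd ⟨k, hk'⟩ (by rw [abs_lt]; omega)
      omega
    rw [key hij.1 hij'.1 hi, key hij.2 hij'.2 hj]
  · obtain ⟨m, n, hmn⟩ := (Φ.mem _).1 (hNx _ hx)
    set i := (-m) % (N : ℤ) with hi
    set j := (-n) % (N : ℤ) with hj
    have hNZ : (N : ℤ) ≠ 0 := by exact_mod_cast hN.ne'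
    have hi0 := Int.emod_nonneg (-m) hNZ
    have hj0 := Int.emod_nonneg (-n) hNZ
    have hiN := Int.emod_lt_of_pos (-m) (by exact_mod_cast hN : (0 : ℤ) < N)
    have hjN := Int.emod_lt_of_pos (-n) (by exact_mod_cast hN : (0 : ℤ) < N)
    set u := pt (i.toNat, j.toNat) with hu
    have hmem : x + u ∈ L.lattice := by
      refine (Φ.mem _).2 ⟨-((-m) / N), -((-n) / N), ?_⟩
      have e1 : ((i.toNat : ℕ) : ℂ) = -(m : ℂ) - N * ((-m) / (N : ℤ) : ℤ) := by
        have : ((i.toNat : ℕ) : ℤ) = -m - N * ((-m) / (N : ℤ)) := by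
          rw [Int.toNat_of_nonneg hi0]; exact Int.emod_def _ _
        exact_mod_cast this
      have e2 : ((j.toNat : ℕ) : ℂ) = -(n : ℂ) - N * ((-n) / (N : ℤ) : ℤ) := by
        have : ((j.toNat : ℕ) : ℤ) = -n - N * ((-n) / (N : ℤ)) := by
          rw [Int.toNat_of_nonneg hj0]; exact Int.emod_def _ _
        exact_mod_cast this
      simp only [hu, hpt, e1, e2]
      push_cast
      field_simp
      linear_combination hmn
    refine ⟨u, Finset.mem_filter.2 ⟨Finset.mem_image.2 ⟨_, ?_, rfl⟩, ?_⟩, hmem⟩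
    · simp only [Finset.mem_product, Finset.mem_range]
      omega
    · rw [show β * u = β * (x + u) - β * x by ring]
      exact sub_mem (hβ _ hmem) hx

/-- **The distribution relation.** -/
theorem exists_distribution (hβ : ∀ l ∈ L.lattice, β * l ∈ L.lattice) (him : β.im ≠ 0) :
    ∃ (U : Finset ℂ) (S : ℂ), (∀ u ∈ U, β * u ∈ L.lattice) ∧
      (IsAlgebraic ℚ L.g₂ → IsAlgebraic ℚ L.g₃ → IsAlgebraic ℚ S) ∧
      ∀ z, β * z ∉ L.lattice → β ^ 2 * ℘[L] (β * z) = ∑ u ∈ U, ℘[L] (z + u) - S := by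
  classical
  obtain ⟨N, U, hN, hU0, hU, hinj, hall⟩ := exists_kernel hβ him
  have hβ0 : β ≠ 0 := fun h => him (by simp [h])
  set S : ℂ := ∑ u ∈ U.erase 0, ℘[L] u with hS
  refine ⟨U, S, fun u hu => (hU u hu).1, fun h₂ h₃ => ?_, ?_⟩
  · refine FA.Damerell.isAlgebraic_sum _ fun u hu => ?_
    obtain ⟨hu0, hu⟩ := Finset.mem_erase.1 hu
    have hnot : u ∉ L.lattice := fun h => hu0 (hinj u hu 0 hU0 (by simpa using h))
    exact (FA.Damerell.isAlgebraic_wp_of_torsion L h₂ h₃ hN.ne' hnot (hU u hu).2).1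
  set D : ℂ → ℂ := fun z => β ^ 2 * ℘[L] (β * z) - ∑ u ∈ U, ℘[L] (z + u) with hD
  have hoff : ∀ {x}, β * x ∉ L.lattice → ∀ u ∈ U, x + u ∉ L.lattice := fun {x} hx u hu h => hx (by
    rw [show β * x = β * (x + u) - β * u by ring]
    exact sub_mem (hβ _ h) (hU u hu).1)
  have hanal : ∀ {x}, β * x ∉ L.lattice → AnalyticAt ℂ D x := fun {x} hx => by
    refine (analyticAt_const.mul ((Mazur.Weier.analyticAt_P L hx).comp_of_eq
      (f := fun y : ℂ => β * y) (by fun_prop) rfl)).sub ?_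
    exact Finset.analyticAt_fun_sum U fun u hu =>
      (Mazur.Weier.analyticAt_P L (hoff hx u hu)).comp_of_eq (f := fun y : ℂ => y + u)
        (by fun_prop) rfl
  set E := ℘[L - (0 : ℂ)] with hE
  have hEa : AnalyticAt ℂ E 0 := L.analyticAt_weierstrassPExcept 0
  have hgerm : ∀ {x}, β * x ∈ L.lattice → ∀ u₀ ∈ U, x + u₀ ∈ L.lattice →
      AnalyticAt ℂ (fun y => β ^ 2 * E (β * (y - x)) - E (y - x) -
        ∑ u ∈ U.erase u₀, ℘[L] (y + u)) x ∧
      ∀ᶠ y in 𝓝[≠] x, D y = β ^ 2 * E (β * (y - x)) - E (y - x) -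
        ∑ u ∈ U.erase u₀, ℘[L] (y + u) := fun {x} hx u₀ hu₀ hxu => by
    refine ⟨((analyticAt_const.mul (hEa.comp_of_eq (f := fun y : ℂ => β * (y - x)) (by fun_prop)
      (by simp))).sub (hEa.comp_of_eq (f := fun y : ℂ => y - x) (by fun_prop) (sub_self x))).sub
      (Finset.analyticAt_fun_sum _ fun u hu => ?_), ?_⟩
    · obtain ⟨hne, hu⟩ := Finset.mem_erase.1 hu
      refine (Mazur.Weier.analyticAt_P L fun h => hne (hinj u hu u₀ hu₀ ?_)).comp_of_eq
        (f := fun y : ℂ => y + u) (by fun_prop) rfl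
      simpa using sub_mem h hxu
    · have ht1 : Tendsto (fun y => β * y) (𝓝[≠] x) (𝓝[≠] (β * x)) := by
        refine tendsto_nhdsWithin_of_tendsto_nhds_of_eventually_within _ ?_ ?_
        · exact ((continuous_const.mul continuous_id).tendsto' x (β * x) rfl).mono_left
            nhdsWithin_le_nhds
        · filter_upwards [self_mem_nhdsWithin] with y hy
          exact fun h => hy (mul_left_cancel₀ hβ0 h)
      have ht2 : Tendsto (fun y => y + u₀) (𝓝[≠] x) (𝓝[≠] (x + u₀)) := by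
        refine tendsto_nhdsWithin_of_tendsto_nhds_of_eventually_within _ ?_ ?_
        · exact ((continuous_add_const u₀).tendsto' x (x + u₀) rfl).mono_left nhdsWithin_le_nhds
        · filter_upwards [self_mem_nhdsWithin] with y hy
          exact fun h => hy (add_right_cancel h)
      filter_upwards [ht1.eventually (wp_near L hx), ht2.eventually (wp_near L hxu),
        self_mem_nhdsWithin] with y h1 h2 hy
      have hyx : y - x ≠ 0 := sub_ne_zero.2 hy
      simp only [hD]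
      rw [← Finset.add_sum_erase U _ hu₀, h1.2, h2.2, ← mul_sub, add_sub_add_right_eq_sub]
      field_simp
      ring
  obtain ⟨C, hC⟩ := exists_const_of_germs L (D := D) (fun x => by
    by_cases hx : β * x ∈ L.lattice
    · obtain ⟨u₀, hu₀, hxu⟩ := hall x hx
      exact ⟨_, hgerm hx u₀ hu₀ hxu⟩
    · exact ⟨D, hanal hx, Eventually.of_forall fun _ => rfl⟩)
    fun z l hl => by
      simp only [hD]
      rw [mul_add, L.weierstrassP_add_coe (β * z) ⟨_, hβ l hl⟩]
      congr 1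
      exact Finset.sum_congr rfl fun u _ => by
        rw [add_right_comm, L.weierstrassP_add_coe (z + u) ⟨l, hl⟩]
  obtain ⟨hG, hev⟩ := hgerm (x := 0) (by simp) 0 hU0 (by simp)
  have hC0 : C = -S := by
    rw [← hC 0 _ hG.continuousAt hev]
    simp [hE, hS]
  intro z hz
  have h := hC z D (hanal hz).continuousAt (Eventually.of_forall fun _ => rfl)
  rw [hC0, hD] at h
  linear_combination h

end FA.CMQuasiPeriods

end
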