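import Fermat.Agent.CMQuasiPeriods.Masser
import Fermat.Agent.Root.SummaryCMPeriods

/-!
# `π` and the Chowla–Selberg products are algebraically independent

A lattice with algebraic invariants and period ratio in the field has periods algebraic multiples
of `π Ω`.
-/

set_option autoImplicit false
set_option linter.style.haveILetI false

noncomputable section

open NumberField Module
open scoped Real IntermediateField UpperHalfPlane

namespace FA.CMQuasiPeriods

open FA.BrownawellWaldschmidt (algebraicIndependent_pair isIntegral_self)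
open FA.Chudnovsky (transcendental_pi)

theorem gammaProduct_eq (K : Type*) [Field K] [NumberField K] {N : ℕ} [NeZero N]
    (χ : DirichletCharacter ℂ N) :
    ((√π)⁻¹ * ∏ a : ZMod N, Real.Gamma ((a.val : ℝ) / N) ^
      ((Units.torsionOrder K : ℝ) * (χ a).re / (4 * classNumber K))) ^ (4 * classNumber K) =
      (∏ a : ZMod N, Real.Gamma ((a.val : ℝ) / N) ^
        ((Units.torsionOrder K : ℝ) * (χ a).re)) / π ^ (2 * classNumber K) := by
  have hh : (classNumber K : ℝ) ≠ 0 := Nat.cast_ne_zero.2 Fintype.card_ne_zero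
  rw [mul_pow, inv_pow, show 4 * classNumber K = 2 * (2 * classNumber K) by ring,
    pow_mul (√π), Real.sq_sqrt Real.pi_pos.le, ← show 4 * classNumber K =
      2 * (2 * classNumber K) by ring, ← Finset.prod_pow, div_eq_inv_mul]
  congr 1
  refine Finset.prod_congr rfl fun a _ => ?_
  have hnn : 0 ≤ Real.Gamma ((a.val : ℝ) / N) := by
    rcases eq_or_ne a.val 0 with ha | ha
    · simp [ha]
    · have : 0 < a.val := Nat.pos_of_ne_zero ha
      have : 0 < N := Nat.pos_of_ne_zero (NeZero.ne N)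
      exact (Real.Gamma_pos_of_pos (by positivity)).le
  rw [← Real.rpow_mul_natCast hnn]
  congr 1
  push_cast
  field_simp

/-- **Chudnovsky**: `π` and the product of Chowla and Selberg. -/
theorem algebraicIndependent_pi_gammaProduct (K : Type*) [Field K] [NumberField K]
    [IsTotallyComplex K] (hK : finrank ℚ K = 2) :
    haveI : NeZero (discr K).natAbs := ⟨Int.natAbs_ne_zero.mpr (discr_ne_zero K)⟩
    ∃ χ : DirichletCharacter ℂ (discr K).natAbs, χ.IsPrimitive ∧ χ ^ 2 = 1 ∧ χ.Odd ∧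
      (∀ z : ℂ, 1 < z.re →
        dedekindZeta K z = riemannZeta z * DirichletCharacter.LFunction χ z) ∧
      AlgebraicIndependent ℚ ![π, ∏ a : ZMod (discr K).natAbs,
        Real.Gamma ((a.val : ℝ) / (discr K).natAbs) ^
          ((Units.torsionOrder K : ℝ) * (χ a).re)] := by
  obtain ⟨d, -, hd0, s, hs⟩ := FA.ChowlaSelberg.exists_sq_eq_intCast_neg K hK
  haveI : NeZero (discr K).natAbs := ⟨Int.natAbs_ne_zero.mpr (discr_ne_zero K)⟩
  obtain ⟨χ, hprim, hq, hodd, hζ, -, hper⟩ := FA.Summary.chowla_selberg_periods K hK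
  refine ⟨χ, hprim, hq, hodd, hζ, ?_⟩
  set G : ℝ := ∏ a : ZMod (discr K).natAbs,
    Real.Gamma ((a.val : ℝ) / (discr K).natAbs) ^ ((Units.torsionOrder K : ℝ) * (χ a).re) with hG
  refine AlgebraicIndependent.of_comp (Complex.ofRealAm.restrictScalars ℚ) ?_
  suffices h : AlgebraicIndependent ℚ ![(π : ℂ), (G : ℂ)] by
    convert h using 1
    ext i
    fin_cases i <;> rfl
  refine algebraicIndependent_pair transcendental_pi fun hGalg => ?_
  obtain ⟨e, he⟩ := FA.FieldClassBound.exists_emb hd0 hs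
  have him : 0 < (e s).im := by
    rw [he]
    simpa using Real.sqrt_pos.2 (neg_pos.2 (Int.cast_lt_zero.2 hd0 : (d : ℝ) < 0))
  set τ : ℍ := ⟨e s, him⟩
  have hj := FA.ChowlaSelberg.isAlgebraic_jfun_of_mem (e := e) hK hd0 hs (τ := τ) ⟨s, rfl⟩
  obtain ⟨c, hc, h₂, h₃⟩ := FA.SchneiderLang.exists_scale_algebraic τ hj
  set L := FA.JInj.scalePair (FA.Mazur.Wp.latPair τ) c hc
  have e₁ : L.ω₁ = c * τ := rfl
  have e₂ : L.ω₂ = c := mul_one c
  have hsq : (τ : ℂ) * τ = (d : ℂ) := by
    show e s * e s = (d : ℂ)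
    rw [← sq, ← map_pow, hs, map_intCast]
  have hcm : HasCM L := ⟨(τ : ℂ), him.ne', fun l hl => by
    obtain ⟨m, n, rfl⟩ := PeriodPair.mem_lattice.1 hl
    refine PeriodPair.mem_lattice.2 ⟨n, m * d, ?_⟩
    rw [e₁, e₂]
    push_cast
    linear_combination -((m : ℂ) * c) * hsq⟩
  obtain ⟨hΩ0, -, hperiod⟩ := hper e
  set Ω : ℝ := (√π)⁻¹ * ∏ a : ZMod (discr K).natAbs,
    Real.Gamma ((a.val : ℝ) / (discr K).natAbs) ^
      ((Units.torsionOrder K : ℝ) * (χ a).re / (4 * classNumber K)) with hΩ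
  have hA := hperiod L h₂ h₃ ⟨s, by
    rw [e₁, e₂, mul_div_cancel_left₀ _ hc]⟩ c (e₂ ▸ L.ω₂_mem_lattice)
  have hπ := isIntegral_self (π : ℂ)
  have hΩint : IsIntegral ℚ⟮(π : ℂ)⟯ (Ω : ℂ) := by
    refine IsIntegral.of_pow (n := 4 * classNumber K)
      (Nat.mul_pos four_pos Fintype.card_pos) ?_
    rw [← Complex.ofReal_pow, hΩ, gammaProduct_eq K χ, ← hG, Complex.ofReal_div,
      Complex.ofReal_pow, div_eq_mul_inv]
    exact hGalg.isIntegral.mul (hπ.pow _).inv
  refine not_isIntegral_cm_period h₂ h₃ hcm (e₂ ▸ L.ω₂_mem_lattice) hc ?_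
  rw [show c = c / ((π : ℂ) * Ω) * ((π : ℂ) * Ω) by
    rw [div_mul_cancel₀]
    exact mul_ne_zero (Complex.ofReal_ne_zero.2 Real.pi_ne_zero) hΩ0]
  exact hA.isIntegral.tower_top.mul (hπ.mul hΩint)

end FA.CMQuasiPeriods

end
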