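import Fermat.Agent.CMQuasiPeriods.Distribution
import Fermat.Agent.EllipseArc.Chudnovsky

/-!
# Masser's relation and Chudnovsky's theorem for CM periods

Integrating the distribution relation and using Legendre's relation, `η / ω` is
`A + B π / ω ²` with algebraic `A`, `B`. So `π` and a period are algebraically independent.
-/

set_option autoImplicit false

noncomputable section

open Filter
open Complex (I)
open scoped Real PeriodPair IntermediateField Topology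

namespace FA.CMQuasiPeriods

open FA.Chudnovsky (Frame alpha shiftC exists_frame not_isIntegral_four isAlgebraic_I
  transcendental_pi)
open FA.EllipticSecondKind (zeta₀ eta zeta₀_add hasDerivAt_zeta₀ add_notMem eta_eq_of_primitive)
open FA.BrownawellWaldschmidt (algebraicIndependent_pair isIntegral_self)

variable {L : PeriodPair} {β : ℂ}

/-- The lattice has complex multiplication by a non-real `β`. -/
def HasCM (L : PeriodPair) : Prop :=
  ∃ β : ℂ, β.im ≠ 0 ∧ ∀ l ∈ L.lattice, β * l ∈ L.lattice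

/-- **Masser's relation.** -/
theorem exists_alpha_relation (Φ : Frame L) (h₂ : IsAlgebraic ℚ L.g₂) (h₃ : IsAlgebraic ℚ L.g₃)
    (hcm : HasCM L) :
    ∃ A B : ℂ, IsAlgebraic ℚ A ∧ IsAlgebraic ℚ B ∧ alpha Φ = A + B * ((π : ℂ) / Φ.ω ^ 2) := by
  obtain ⟨β, him, hβ⟩ := hcm
  obtain ⟨U, S, hU, hSalg, hdist⟩ := exists_distribution hβ him
  have hS := hSalg h₂ h₃
  have hβ0 : β ≠ 0 := fun h => him (by simp [h])
  obtain ⟨a, b, hab⟩ := (Φ.mem _).1 (hβ _ Φ.ω_mem)
  have hβτ : (a : ℂ) + b * Φ.τ = β := mul_right_cancel₀ Φ.hω hab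
  have heta : eta Φ (β * Φ.ω) = alpha Φ * (β * Φ.ω) + b * shiftC Φ := by
    rw [eta, mul_div_cancel_right₀ _ Φ.hω, ← hβτ]
    simp [Φ.hτ.ne']
    ring
  have hetaω : eta Φ Φ.ω = alpha Φ * Φ.ω := by
    rw [eta, div_self Φ.hω]; simp
  set V : Set ℂ := {z | β * z ∉ L.lattice} with hV
  have hVopen : IsOpen V :=
    L.isClosed_lattice.isOpen_compl.preimage (continuous_const.mul continuous_id)
  have hVconn : IsPreconnected V := by
    refine Mazur.Weier.preconnected_compl (s := {z | β * z ∈ L.lattice}) ?_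
    exact (Mazur.Weier.countable_lattice L).preimage fun x y h => mul_left_cancel₀ hβ0 h
  set f : ℂ → ℂ := fun z => β * zeta₀ Φ (β * z) - ∑ u ∈ U, zeta₀ Φ (z + u) - S * z with hf
  have hoff : ∀ {z}, z ∈ V → ∀ u ∈ U, z + u ∉ L.lattice := fun {z} hz u hu h => hz (by
    rw [show β * z = β * (z + u) - β * u by ring]
    exact sub_mem (hβ _ h) (hU u hu))
  have hd : ∀ z ∈ V, HasDerivAt f 0 z := fun z hz => by
    have h1 := ((hasDerivAt_zeta₀ Φ hz).comp z ((hasDerivAt_id z).const_mul β)).const_mul β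
    have h2 : HasDerivAt (fun z => ∑ u ∈ U, zeta₀ Φ (z + u)) (∑ u ∈ U, -℘[L] (z + u)) z :=
      HasDerivAt.fun_sum fun u hu => ((hasDerivAt_zeta₀ Φ (hoff hz u hu)).comp_add_const z u)
    refine ((h1.sub h2).sub ((hasDerivAt_id z).const_mul S)).congr_deriv ?_
    rw [Finset.sum_neg_distrib]
    linear_combination -(hdist z hz)
  obtain ⟨z₀, hz₀⟩ : V.Nonempty := by
    refine ⟨Φ.ω / (2 * β), ?_⟩
    show β * (Φ.ω / (2 * β)) ∉ L.lattice
    rw [show β * (Φ.ω / (2 * β)) = Φ.ω / 2 by field_simp]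
    exact Φ.half_notMem
  have hz₁ : z₀ + Φ.ω ∈ V := fun h => hz₀ (by
    simpa [mul_add] using sub_mem h (hβ _ Φ.ω_mem))
  have hconst : f (z₀ + Φ.ω) = f z₀ := hVopen.is_const_of_deriv_eq_zero hVconn
    (fun z hz => (hd z hz).differentiableAt.differentiableWithinAt)
    (fun z hz => (hd z hz).deriv) hz₁ hz₀
  have hshift : ∀ u ∈ U, zeta₀ Φ (z₀ + Φ.ω + u) = zeta₀ Φ (z₀ + u) + alpha Φ * Φ.ω :=
    fun u hu => by rw [add_right_comm, zeta₀_add Φ (hoff hz₀ u hu) Φ.ω_mem, hetaω]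
  simp only [hf] at hconst
  rw [Finset.sum_congr rfl hshift, mul_add β z₀, zeta₀_add Φ hz₀ (hβ _ Φ.ω_mem), heta,
    Finset.sum_add_distrib, Finset.sum_const, nsmul_eq_mul] at hconst
  have hne : β ^ 2 - (U.card : ℂ) ≠ 0 := fun h => by
    have hre := congrArg Complex.re h
    have hi := congrArg Complex.im h
    simp [sq] at hre hi
    have hre0 : β.re = 0 := (mul_eq_zero.1 (by linarith : β.re * β.im = 0)).resolve_right him
    rw [hre0] at hre
    have : 0 < β.im * β.im := mul_self_pos.2 him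
    have := Nat.cast_nonneg (α := ℝ) U.card
    linarith
  have hβa := isAlgebraic_of_mul_mem hβ
  have hden : IsAlgebraic ℚ ((β ^ 2 - (U.card : ℂ))⁻¹) :=
    ((hβa.pow 2).sub (isAlgebraic_natCast U.card)).inv
  refine ⟨S * (β ^ 2 - (U.card : ℂ))⁻¹,
    2 * I * β * b * (β ^ 2 - (U.card : ℂ))⁻¹, hS.mul hden, ?_, ?_⟩
  · exact ((((isAlgebraic_natCast 2).mul isAlgebraic_I).mul hβa).mul (isAlgebraic_intCast b)).mul
      hden
  · rw [shiftC] at hconst
    have hω := Φ.hω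
    field_simp at hconst ⊢
    linear_combination hconst

/-- No period of a CM lattice with algebraic invariants is algebraic over `ℚ(π)`. -/
theorem not_isIntegral_cm_period (h₂ : IsAlgebraic ℚ L.g₂) (h₃ : IsAlgebraic ℚ L.g₃)
    (hcm : HasCM L) {T : ℂ} (hT : T ∈ L.lattice) (hT0 : T ≠ 0) :
    ¬ IsIntegral ℚ⟮(π : ℂ)⟯ T := fun hint => by
  obtain ⟨Φ, k, hk, rfl⟩ := FA.EllipseArc.exists_frame_of_mem hT hT0
  have hk0 : (k : ℂ) ≠ 0 := Int.cast_ne_zero.2 hk
  have hω : IsIntegral ℚ⟮(π : ℂ)⟯ Φ.ω := by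
    have h := ((isAlgebraic_intCast (R := ℚ) (A := ℂ) k).inv.isIntegral.tower_top
      (A := ℚ⟮(π : ℂ)⟯)).mul hint
    rwa [inv_mul_cancel_left₀ hk0] at h
  obtain ⟨A, B, hA, hB, hα⟩ := exists_alpha_relation Φ h₂ h₃ hcm
  have hπ := isIntegral_self (π : ℂ)
  refine not_isIntegral_four Φ transcendental_pi h₂.isIntegral.tower_top h₃.isIntegral.tower_top
    ?_ ?_
  · rw [hα, div_eq_mul_inv]
    exact hA.isIntegral.tower_top.add
      (hB.isIntegral.tower_top.mul (hπ.mul (hω.pow 2).inv))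
  · rw [div_eq_mul_inv]
    exact hπ.mul hω.inv

/-- **Chudnovsky for CM periods.** -/
theorem algebraicIndependent_pi_period (h₂ : IsAlgebraic ℚ L.g₂) (h₃ : IsAlgebraic ℚ L.g₃)
    (hcm : HasCM L) {T : ℂ} (hT : T ∈ L.lattice) (hT0 : T ≠ 0) :
    AlgebraicIndependent ℚ ![(π : ℂ), T] :=
  algebraicIndependent_pair transcendental_pi fun h =>
    not_isIntegral_cm_period h₂ h₃ hcm hT hT0 h.isIntegral

/-- Masser's relation for any primitive of `-℘` and any period. -/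
theorem exists_quasiPeriod_relation (h₂ : IsAlgebraic ℚ L.g₂) (h₃ : IsAlgebraic ℚ L.g₃)
    (hcm : HasCM L) {ζ : ℂ → ℂ} (hζ : ∀ z ∉ L.lattice, HasDerivAt ζ (-℘[L] z) z) {T η : ℂ}
    (hT : T ∈ L.lattice) (hT0 : T ≠ 0) (hη : ∀ z ∉ L.lattice, ζ (z + T) = ζ z + η) :
    ∃ A B : ℂ, IsAlgebraic ℚ A ∧ IsAlgebraic ℚ B ∧ η = A * T + B * ((π : ℂ) / T) := by
  obtain ⟨Φ, k, hk, rfl⟩ := FA.EllipseArc.exists_frame_of_mem hT hT0
  obtain ⟨A, B, hA, hB, hα⟩ := exists_alpha_relation Φ h₂ h₃ hcm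
  refine ⟨A, B * (k : ℂ) ^ 2, hA, hB.mul ((isAlgebraic_intCast k).pow 2), ?_⟩
  rw [eta_eq_of_primitive Φ hζ hT hη, FA.EllipseArc.eta_frame_multiple, hα]
  have := Φ.hω
  have : (k : ℂ) ≠ 0 := Int.cast_ne_zero.2 hk
  field_simp

end FA.CMQuasiPeriods

end
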